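import Fermat.Agent.MazR.DRes
import Fermat.Agent.MazR.PA2
import Fermat.Agent.SSMod.GaussN

/-!
# The discretely valued field of quotients of Laurent series over a discrete valuation ring
-/

set_option autoImplicit false
set_option linter.unusedSectionVars false

noncomputable section

namespace Fermat.Agent.MazHD

open ModularCurve Fermat.Agent.ModFun Fermat.Agent.GoodRed Fermat.Agent.MazR IsLocalRing
open Fermat.Agent.SSMod (LR.C LR.div LR.pow LR.sub coeffMap_C')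

local notation "ℒ" => LaurentSeries

variable {K : Type*} [Field K] (A : ValuationSubring K) (L : Subfield K)

/-- `L`-rational Laurent series with coefficients in `A` -/
def PL : Subring (ℒ K) := (coeffMap (L.toSubring ⊓ A.toSubring).subtype).range

variable {A L}

theorem mem_PL {f : ℒ K} : f ∈ PL A L ↔ ∀ n, f.coeff n ∈ L ∧ f.coeff n ∈ A := by
  constructor
  · rintro ⟨g, rfl⟩ n
    rw [coeffMap_coeff]
    exact ⟨(g.coeff n).2.1, (g.coeff n).2.2⟩
  · intro h
    refine ⟨⟨fun n => ⟨f.coeff n, h n⟩, ?_⟩, ?_⟩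
    · refine f.isPWO_support.mono fun n hn => ?_
      rw [Function.mem_support] at hn
      rw [HahnSeries.mem_support]
      intro h0
      exact hn (Subtype.ext h0)
    · ext n
      rw [coeffMap_coeff]
      rfl

variable (A L) in
/-- quotients -/
def Om : Subfield (ℒ K) := Subfield.closure (PL A L : Set (ℒ K))

theorem PL_le_Om {x : ℒ K} (hx : x ∈ PL A L) : x ∈ Om A L := Subfield.subset_closure hx

theorem mem_Om {x : ℒ K} (hx : x ∈ Om A L) : ∃ y ∈ PL A L, ∃ z ∈ PL A L, x = y / z := by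
  rw [Om, Subfield.mem_closure_iff] at hx
  obtain ⟨y, hy, z, hz, h⟩ := hx
  rw [Subring.closure_eq] at hy hz
  exact ⟨y, hy, z, hz, h.symm⟩

theorem C_mem_PL {c : K} (hc : c ∈ L) (hcA : c ∈ A) : (HahnSeries.C c : ℒ K) ∈ PL A L := by
  rw [mem_PL]
  intro n
  rw [HahnSeries.C_apply, HahnSeries.coeff_single]
  split_ifs
  · exact ⟨hc, hcA⟩
  · exact ⟨zero_mem _, zero_mem _⟩

theorem C_mem_Om {c : K} (hc : c ∈ L) : (HahnSeries.C c : ℒ K) ∈ Om A L := by
  rcases A.mem_or_inv_mem c with h | h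
  · exact PL_le_Om (C_mem_PL hc h)
  · have h1 : (HahnSeries.C c⁻¹ : ℒ K) ∈ Om A L := PL_le_Om (C_mem_PL (inv_mem hc) h)
    have h2 := inv_mem h1
    rwa [← map_inv₀, inv_inv] at h2

/-- a uniformizer -/
structure Unif (A : ValuationSubring K) (L : Subfield K) (ϖ : K) : Prop where
  mem : ϖ ∈ L
  ne : ϖ ≠ 0
  lt : A.valuation ϖ < 1
  sc : ∀ x ∈ L, x ≠ 0 → ∃ m : ℤ, A.valuation (ϖ ^ m * x) = 1

section

variable {ϖ : K} (h : Unif A L ϖ)

include h in
theorem Unif.memA : ϖ ∈ A := (A.valuation_le_one_iff _).mp h.lt.le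

include h in
theorem exists_nat {x : K} (hx : x ∈ L) (hx0 : x ≠ 0) (hA : x ∈ A) :
    ∃ m : ℕ, A.valuation x = A.valuation ϖ ^ m := by
  obtain ⟨m, hm⟩ := h.sc x hx hx0
  have hv0 : A.valuation ϖ ≠ 0 := (Valuation.ne_zero_iff _).mpr h.ne
  rw [map_mul, map_zpow₀] at hm
  have h1 : A.valuation x = A.valuation ϖ ^ (-m) := by
    rw [zpow_neg]
    exact eq_inv_of_mul_eq_one_right hm
  have h2 : A.valuation x ≤ 1 := (A.valuation_le_one_iff _).mpr hA
  have h3 : 0 ≤ -m := by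
    by_contra hneg
    push Not at hneg
    obtain ⟨k, hk⟩ : ∃ k : ℕ, m = ((k + 1 : ℕ) : ℤ) := ⟨(m - 1).toNat, by omega⟩
    rw [hk, zpow_natCast] at hm
    have h4 : A.valuation ϖ ^ (k + 1) < 1 := pow_lt_one₀ zero_le h.lt (Nat.succ_ne_zero k)
    have h5 : A.valuation ϖ ^ (k + 1) * A.valuation x < 1 := by
      calc A.valuation ϖ ^ (k + 1) * A.valuation x ≤ A.valuation ϖ ^ (k + 1) * 1 :=
            mul_le_mul_right h2 _
        _ < 1 := by rwa [mul_one]
    exact h5.ne hm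
  obtain ⟨k, hk⟩ := Int.eq_ofNat_of_zero_le h3
  exact ⟨k, by rw [h1, hk]; exact zpow_natCast _ _⟩

include h in
/-- scaling of series -/
theorem scale_PL {f : ℒ K} (hf : f ∈ PL A L) (hf0 : f ≠ 0) :
    ∃ m : ℤ, ∃ y : ℒ (ResidueField A), y ≠ 0 ∧
      LR (residue A) (HahnSeries.C (ϖ ^ m) * f) y := by
  classical
  rw [mem_PL] at hf
  obtain ⟨n₁, hn₁⟩ : ∃ n, f.coeff n ≠ 0 := by
    by_contra hall
    push Not at hall
    exact hf0 (by ext n; simpa using hall n)
  have hex : ∃ m : ℕ, ∃ n, f.coeff n ≠ 0 ∧ A.valuation (f.coeff n) = A.valuation ϖ ^ m := by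
    obtain ⟨m, hm⟩ := exists_nat h (hf n₁).1 hn₁ (hf n₁).2
    exact ⟨m, n₁, hn₁, hm⟩
  set m := Nat.find hex with hmdef
  obtain ⟨n₀, hn₀, hval⟩ := Nat.find_spec hex
  have hv0 : A.valuation ϖ ≠ 0 := (Valuation.ne_zero_iff _).mpr h.ne
  have hvpos : 0 < A.valuation ϖ := zero_lt_iff.mpr hv0
  have hmem : ∀ n, (HahnSeries.C (ϖ ^ (-(m : ℤ))) * f).coeff n ∈ A := by
    intro n
    rw [HahnSeries.C_mul_eq_smul, HahnSeries.coeff_smul, smul_eq_mul,
      ← A.valuation_le_one_iff, map_mul, map_zpow₀, zpow_neg, zpow_natCast]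
    by_cases hn : f.coeff n = 0
    · rw [hn, map_zero, mul_zero]; exact zero_le
    · obtain ⟨k, hk⟩ := exists_nat h (hf n).1 hn (hf n).2
      have hmk : m ≤ k := Nat.find_min' hex ⟨n, hn, hk⟩
      rw [hk]
      obtain ⟨d, rfl⟩ := Nat.exists_eq_add_of_le hmk
      rw [pow_add, ← mul_assoc, inv_mul_cancel₀ (pow_ne_zero _ hv0), one_mul]
      exact pow_le_one₀ zero_le h.lt.le
  obtain ⟨g, hg⟩ := exists_coeffMap hmem
  refine ⟨-(m : ℤ), coeffMap (residue A) g, ?_, ?_⟩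
  · intro h0
    have h1 := congrArg (fun z : ℒ (ResidueField A) => z.coeff n₀) h0
    rw [coeffMap_coeff, HahnSeries.coeff_zero, residue_eq_zero_iff] at h1
    have h2 := (A.valuation_lt_one_iff _).mp h1
    have h3 := congrArg (fun z : ℒ K => z.coeff n₀) hg
    rw [coeffMap_coeff, HahnSeries.C_mul_eq_smul, HahnSeries.coeff_smul, smul_eq_mul] at h3
    have h4 : ((g.coeff n₀ : A) : K) = ϖ ^ (-(m : ℤ)) * f.coeff n₀ := h3
    rw [h4, map_mul, map_zpow₀, zpow_neg, zpow_natCast, hval,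
      inv_mul_cancel₀ (pow_ne_zero _ hv0)] at h2
    exact lt_irrefl _ h2
  · rw [← hg]
    exact LR.of g

include h in
/-- scaling of quotients -/
theorem scale_Om {x : ℒ K} (hx : x ∈ Om A L) (hx0 : x ≠ 0) :
    ∃ m : ℤ, ∃ y : ℒ (ResidueField A), y ≠ 0 ∧
      LR (residue A) (HahnSeries.C (ϖ ^ m) * x) y := by
  obtain ⟨f, hf, g, hg, rfl⟩ := mem_Om hx
  have hf0 : f ≠ 0 := by rintro rfl; exact hx0 (zero_div _)
  have hg0 : g ≠ 0 := by rintro rfl; exact hx0 (div_zero _)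
  obtain ⟨m, y, hy, h1⟩ := scale_PL h hf hf0
  obtain ⟨n, z, hz, h2⟩ := scale_PL h hg hg0
  refine ⟨m - n, y / z, div_ne_zero hy hz, ?_⟩
  have e : (HahnSeries.C (ϖ ^ (m - n)) : ℒ K) * (f / g) =
      (HahnSeries.C (ϖ ^ m) * f) / (HahnSeries.C (ϖ ^ n) * g) := by
    rw [zpow_sub₀ h.ne, map_div₀]
    have : (HahnSeries.C (ϖ ^ n) : ℒ K) ≠ 0 := by
      rw [Ne, map_eq_zero]
      exact zpow_ne_zero _ h.ne
    field_simp
  rw [e]
  exact LR.div h1 h2 hz

variable (A) in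
/-- `LR`-integral elements of a subfield -/
theorem LR_zpow_of_nonneg {ϖ : K} (hϖ : ϖ ∈ A) {m : ℤ} (hm : 0 ≤ m) :
    ∃ y, LR (residue A) (HahnSeries.C (ϖ ^ m)) y := by
  obtain ⟨k, rfl⟩ := Int.eq_ofNat_of_zero_le hm
  refine ⟨_, LR.C (⟨ϖ ^ (Int.ofNat k), ?_⟩ : A)⟩
  simp only [Int.ofNat_eq_natCast, zpow_natCast]
  exact pow_mem hϖ k

theorem mem_or_inv_aux {x : ℒ K} {ϖ : K} (hϖ0 : ϖ ≠ 0) (hϖ : ϖ ∈ A)
    {m : ℤ} {y : ℒ (ResidueField A)} (hy : y ≠ 0)
    (hLR : LR (residue A) (HahnSeries.C (ϖ ^ m) * x) y) :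
    (∃ z, LR (residue A) x z) ∨ (∃ z, LR (residue A) x⁻¹ z) := by
  have hC : (HahnSeries.C (ϖ ^ m) : ℒ K) ≠ 0 := by
    rw [Ne, map_eq_zero]
    exact zpow_ne_zero _ hϖ0
  rcases le_total m 0 with hm | hm
  · left
    obtain ⟨z, hz⟩ := LR_zpow_of_nonneg A hϖ (m := -m) (by omega)
    refine ⟨z * y, ?_⟩
    have h1 := hz.mul hLR
    rwa [← mul_assoc, ← map_mul, ← zpow_add₀ hϖ0, neg_add_cancel, zpow_zero, map_one,
      one_mul] at h1
  · right
    obtain ⟨z, hz⟩ := LR_zpow_of_nonneg A hϖ hm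
    refine ⟨z * y⁻¹, ?_⟩
    have h1 := hz.mul (hLR.inv hy)
    rwa [mul_inv, ← mul_assoc, mul_inv_cancel₀ hC, one_mul] at h1

section Abs

variable {Ω : Type*} [Field Ω] (j : Ω →+* ℒ K) (hj : ∀ x, j x ∈ Om A L)

include h hj in
theorem mem_or_inv_j (x : Ω) : (∃ y, LR (residue A) (j x) y) ∨ (∃ y, LR (residue A) (j x⁻¹) y) := by
  by_cases hx : x = 0
  · left
    exact ⟨0, by rw [hx, map_zero]; exact LR.zero _⟩
  · obtain ⟨m, y, hy, hLR⟩ := scale_Om h (hj x) ((map_ne_zero j).mpr hx)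
    rw [map_inv₀]
    exact mem_or_inv_aux h.ne h.memA hy hLR

/-- the valuation ring of `LR`-integral elements -/
def OO : ValuationSubring Ω where
  carrier := {x | ∃ y, LR (residue A) (j x) y}
  mul_mem' := by
    rintro x y ⟨z, hz⟩ ⟨w, hw⟩
    exact ⟨_, by rw [map_mul]; exact hz.mul hw⟩
  one_mem' := ⟨_, by rw [map_one]; exact LR.one _⟩
  add_mem' := by
    rintro x y ⟨z, hz⟩ ⟨w, hw⟩
    exact ⟨_, by rw [map_add]; exact hz.add hw⟩
  zero_mem' := ⟨_, by rw [map_zero]; exact LR.zero _⟩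
  neg_mem' := by
    rintro x ⟨z, hz⟩
    exact ⟨_, by rw [map_neg]; exact hz.neg⟩
  mem_or_inv_mem' := mem_or_inv_j h j hj

theorem mem_OO {x : Ω} : x ∈ OO h j hj ↔ ∃ y, LR (residue A) (j x) y := Iff.rfl

/-- the residue map -/
def resO : OO h j hj →+* ℒ (ResidueField A) where
  toFun x := x.2.choose
  map_one' := ((1 : OO h j hj).2.choose_spec).unique (by
    change LR (residue A) (j 1) 1
    rw [map_one]; exact LR.one _)
  map_mul' x y := ((x * y).2.choose_spec).unique (by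
    change LR (residue A) (j ((x : Ω) * (y : Ω))) _
    rw [map_mul]; exact x.2.choose_spec.mul y.2.choose_spec)
  map_zero' := ((0 : OO h j hj).2.choose_spec).unique (by
    change LR (residue A) (j 0) 0
    rw [map_zero]; exact LR.zero _)
  map_add' x y := ((x + y).2.choose_spec).unique (by
    change LR (residue A) (j ((x : Ω) + (y : Ω))) _
    rw [map_add]; exact x.2.choose_spec.add y.2.choose_spec)

theorem resO_spec (x : OO h j hj) : LR (residue A) (j (x : Ω)) (resO h j hj x) := x.2.choose_spec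

variable {ϖ' : Ω} (hϖ' : j ϖ' = HahnSeries.C ϖ)

include h hϖ' in
theorem LR_ϖ : LR (residue A) (j ϖ') 0 := by
  have h1 : residue A ⟨ϖ, h.memA⟩ = 0 := by
    rw [residue_eq_zero_iff]
    exact (A.valuation_lt_one_iff _).mpr h.lt
  have h2 := LR.C (π := residue A) ⟨ϖ, h.memA⟩
  rw [h1, map_zero] at h2
  rw [hϖ']
  exact h2

/-- the discretely valued field -/
def dr : DRes Ω (ℒ (ResidueField A)) where
  O := OO h j hj
  res := resO h j hj
  res_ne_zero_iff x := by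
    constructor
    · intro hx
      refine ⟨?_, _, by
        change LR (residue A) (j (x : Ω)⁻¹) _
        rw [map_inv₀]
        exact (resO_spec h j hj x).inv hx⟩
      intro h0
      apply hx
      refine (resO_spec h j hj x).unique ?_
      rw [h0, map_zero]
      exact LR.zero _
    · rintro ⟨hx, hx'⟩ h0
      obtain ⟨y, hy⟩ := hx'
      have h1 := (resO_spec h j hj x).mul hy
      rw [h0, zero_mul, ← map_mul, mul_inv_cancel₀ hx, map_one] at h1
      exact one_ne_zero ((LR.one _).unique h1)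
  ϖ := ϖ'
  ϖ_ne := by
    rintro rfl
    rw [map_zero] at hϖ'
    exact h.ne ((map_eq_zero (HahnSeries.C : K →+* ℒ K)).mp hϖ'.symm)
  ϖ_mem := ⟨_, LR_ϖ h j hϖ'⟩
  ϖ_res := (resO_spec h j hj _).unique (LR_ϖ h j hϖ')
  scale' x hx := by
    obtain ⟨m, y, hy, hLR⟩ := scale_Om h (hj x) ((map_ne_zero j).mpr hx)
    have e : j (ϖ' ^ m * x) = HahnSeries.C (ϖ ^ m) * j x := by
      rw [map_mul, map_zpow₀, hϖ', map_zpow₀]
    rw [← e] at hLR
    refine ⟨m, ⟨y, hLR⟩, ?_⟩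
    have h2 : resO h j hj ⟨ϖ' ^ m * x, y, hLR⟩ = y := (resO_spec h j hj _).unique hLR
    rw [h2]
    exact hy

theorem dr_r {x : Ω} {y : ℒ (ResidueField A)} (hLR : LR (residue A) (j x) y) :
    (dr h j hj hϖ').r x = y := by
  have hx : x ∈ (dr h j hj hϖ').O := ⟨y, hLR⟩
  rw [DRes.r_of_mem hx]
  exact (resO_spec h j hj ⟨x, hx⟩).unique hLR

end Abs

end

section Lift

variable {F Ω E : Type*} [Field F] [Field Ω] [Field E]

theorem exists_lift_hom (i : F →+* E) (j : Ω →+* E) (h : ∀ x, ∃ y, j y = i x) :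
    ∃ f : F →+* Ω, ∀ x, j (f x) = i x := by
  choose f hf using h
  refine ⟨{ toFun := f, map_one' := j.injective (by rw [hf, map_one, map_one]),
            map_mul' := fun x y => j.injective (by rw [hf, map_mul, map_mul, hf, hf]),
            map_zero' := j.injective (by rw [hf, map_zero, map_zero]),
            map_add' := fun x y => j.injective (by rw [hf, map_add, map_add, hf, hf]) }, hf⟩

theorem exists_lift_equiv (j : Ω →+* E) (e e' : E →+* E) (h1 : ∀ x, ∃ y, j y = e (j x))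
    (h2 : ∀ x, ∃ y, j y = e' (j x)) (hee' : ∀ x, e' (e x) = x) (he'e : ∀ x, e (e' x) = x) :
    ∃ s : Ω ≃+* Ω, (∀ x, j (s x) = e (j x)) ∧ (∀ x, j (s.symm x) = e' (j x)) := by
  obtain ⟨f, hf⟩ := exists_lift_hom (e.comp j) j h1
  obtain ⟨g, hg⟩ := exists_lift_hom (e'.comp j) j h2
  refine ⟨RingEquiv.ofRingHom f g ?_ ?_, hf, hg⟩
  · ext x
    apply j.injective
    rw [RingHom.comp_apply, hf, RingHom.comp_apply, hg, RingHom.comp_apply, he'e, RingHom.id_apply]
  · ext x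
    apply j.injective
    rw [RingHom.comp_apply, hg, RingHom.comp_apply, hf, RingHom.comp_apply, hee', RingHom.id_apply]

end Lift

end Fermat.Agent.MazHD
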