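import Fermat.Agent.MazHD.DL1
import Fermat.Agent.MazR.DecS
import Fermat.Agent.TorLift.ModInst
import Fermat.Agent.TWGal.Inertia
import Fermat.Agent.GoodRed.S37Core

/-!
# The field of modular functions over a subfield of the constants
-/

set_option autoImplicit false
set_option linter.unusedSectionVars false

noncomputable section

namespace Fermat.Agent.MazHD

open ModularCurve Fermat.Agent.ModFun Fermat.Agent.GoodRed Fermat.Agent.MazR IsLocalRing
open Fermat.Agent.SSMod (LR.C LR.div LR.pow LR.sub coeffMap_C')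

local notation "ℒ" => LaurentSeries

section

variable {K : Type*} [Field K] (L : Subfield K) (M : ℕ)

/-- generators -/
def gens : Set (ℒ K) := {x | ∃ c ∈ L, x = HahnSeries.C c} ∪ {x | ∃ d, d ∣ M ∧ x = Jd K d}

/-- the field of modular functions with constants in `L` -/
def FL : Subfield (ℒ K) := Subfield.closure (gens L M)

variable {L M}

theorem C_mem_FL {c : K} (hc : c ∈ L) : (HahnSeries.C c : ℒ K) ∈ FL L M :=
  Subfield.subset_closure (Or.inl ⟨c, hc, rfl⟩)

theorem Jd_mem_FL {d : ℕ} (hd : d ∣ M) : Jd K d ∈ FL L M :=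
  Subfield.subset_closure (Or.inr ⟨d, hd, rfl⟩)

theorem FL_mono {L' : Subfield K} (h : L ≤ L') : FL L M ≤ FL L' M := by
  rw [FL, Subfield.closure_le]
  rintro x (⟨c, hc, rfl⟩ | ⟨d, hd, rfl⟩)
  · exact C_mem_FL (h hc)
  · exact Jd_mem_FL hd

theorem FL_le_full (hM : M ≠ 0) {x : ℒ K} (hx : x ∈ FL L M) :
    x ∈ modularFunctionFieldFullC K M := by
  have h : FL L M ≤ (modularFunctionFieldFullC K M).toSubfield := by
    rw [FL, Subfield.closure_le]
    rintro x (⟨c, hc, rfl⟩ | ⟨d, hd, rfl⟩)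
    · have := IntermediateField.algebraMap_mem (modularFunctionFieldFullC K M) c
      rw [← ModFun.C_eq_algebraMap] at this
      exact this
    · exact Jd_mem K hM hd
  exact h hx

theorem coeffMap_Jd' {K' : Type*} [Field K'] (f : K →+* K') (d : ℕ) [NeZero d] :
    coeffMap f (Jd K d) = Jd K' d := by
  rw [Jd_eq, Jd_eq, coeffMap_qExpand, coeffMap_jqModC]

theorem Jd_mem_PL (A : ValuationSubring K) (d : ℕ) [NeZero d] : Jd K d ∈ PL A L := by
  rw [mem_PL]
  intro n
  have h1 : coeffMap (Int.castRingHom K) (qExpand ℤ d (jqModC ℤ)) = Jd K d := by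
    rw [Jd_eq, coeffMap_qExpand, coeffMap_jqModC]
  rw [← h1, coeffMap_coeff, eq_intCast]
  exact ⟨intCast_mem _ _, intCast_mem _ _⟩

theorem FL_le_Om (A : ValuationSubring K) (hM : M ≠ 0) : FL L M ≤ Om A L := by
  rw [FL, Subfield.closure_le]
  rintro x (⟨c, hc, rfl⟩ | ⟨d, hd, rfl⟩)
  · exact C_mem_Om hc
  · haveI : NeZero d := ⟨fun h => hM (by rw [h, zero_dvd_iff] at hd; exact hd)⟩
    exact PL_le_Om (Jd_mem_PL A d)

/-- coefficientwise action preserves `FL` -/
theorem map_FL (hM : M ≠ 0) (σ : K →+* K) (hσ : ∀ c ∈ L, σ c ∈ L) {x : ℒ K} (hx : x ∈ FL L M) :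
    coeffMap σ x ∈ FL L M := by
  have h : FL L M ≤ (FL L M).comap (coeffMap σ : ℒ K →+* ℒ K) := by
    conv_lhs => rw [FL]
    rw [Subfield.closure_le]
    rintro x (⟨c, hc, rfl⟩ | ⟨d, hd, rfl⟩)
    · change coeffMap σ (HahnSeries.C c) ∈ FL L M
      rw [coeffMap_C']
      exact C_mem_FL (hσ c hc)
    · haveI : NeZero d := ⟨fun h => hM (by rw [h, zero_dvd_iff] at hd; exact hd)⟩
      change coeffMap σ (Jd K d) ∈ FL L M
      rw [coeffMap_Jd']
      exact Jd_mem_FL hd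
  exact h hx

/-- elements of `FL` are fixed by automorphisms fixing `L` -/
theorem fix_FL (hM : M ≠ 0) (σ : K →+* K) (hσ : ∀ c ∈ L, σ c = c) {x : ℒ K} (hx : x ∈ FL L M) :
    coeffMap σ x = x := by
  have h : FL L M ≤ RingHom.eqLocusField (coeffMap σ : ℒ K →+* ℒ K) (RingHom.id _) := by
    rw [FL, Subfield.closure_le]
    rintro x (⟨c, hc, rfl⟩ | ⟨d, hd, rfl⟩)
    · change coeffMap σ (HahnSeries.C c) = HahnSeries.C c
      rw [coeffMap_C', hσ c hc]
    · haveI : NeZero d := ⟨fun h => hM (by rw [h, zero_dvd_iff] at hd; exact hd)⟩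
      change coeffMap σ (Jd K d) = Jd K d
      rw [coeffMap_Jd']
  exact h hx

/-- coefficientwise action preserves `PL` and `Om` -/
theorem map_PL {A : ValuationSubring K} (σ : K →+* K) (hσ : ∀ c ∈ L, σ c ∈ L)
    (hσA : ∀ c ∈ A, σ c ∈ A) {x : ℒ K} (hx : x ∈ PL A L) : coeffMap σ x ∈ PL A L := by
  rw [mem_PL] at hx ⊢
  intro n
  rw [coeffMap_coeff]
  exact ⟨hσ _ (hx n).1, hσA _ (hx n).2⟩

theorem map_Om {A : ValuationSubring K} (σ : K →+* K) (hσ : ∀ c ∈ L, σ c ∈ L)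
    (hσA : ∀ c ∈ A, σ c ∈ A) {x : ℒ K} (hx : x ∈ Om A L) : coeffMap σ x ∈ Om A L := by
  obtain ⟨y, hy, z, hz, rfl⟩ := mem_Om hx
  have h1 : coeffMap σ (y / z) = coeffMap σ y / coeffMap σ z := map_div₀ (coeffMap σ) y z
  rw [h1]
  exact div_mem (PL_le_Om (map_PL σ hσ hσA hy)) (PL_le_Om (map_PL σ hσ hσA hz))

end

end Fermat.Agent.MazHD
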