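import Fermat.Agent.MazHD.DL2
import Fermat.Agent.Carayol.Inertia3

/-!
# Finite extensions of the inertia field as fields of constants
-/

set_option autoImplicit false
set_option linter.unusedSectionVars false
set_option linter.style.haveILetI false

noncomputable section

namespace Fermat.Agent.MazHD

open ModularCurve Fermat.Agent.ModFun Fermat.Agent.GoodRed Fermat.Agent.MazR IsLocalRing
open Fermat.Agent.Carayol
open Fermat.Agent.SSMod (LR.C LR.div LR.pow LR.sub coeffMap_C')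
open scoped Pointwise

local notation "ℒ" => LaurentSeries

variable {A : ValuationSubring Qb} {q : ℕ}

set_option maxHeartbeats 1000000 in
theorem dvr_A1 (hq : q.Prime) (hA : A.LiesOverPrime q) (K₁ : IntermediateField (K0 A) Qb)
    [FiniteDimensional (K0 A) K₁] : IsDiscreteValuationRing (A1 A K₁) := by
  haveI := dvr_A0 hq hA
  haveI hfin : Module.Finite (A0 A) (A1 A K₁) :=
    IsIntegralClosure.finite (A0 A) (K0 A) K₁ (A1 A K₁)
  haveI hnoe : IsNoetherianRing (A1 A K₁) :=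
    isNoetherian_of_tower (A0 A) (isNoetherian_of_isNoetherianRing_of_finite (A0 A) (A1 A K₁))
  haveI : IsPrincipalIdealRing (A1 A K₁) := (IsBezout.TFAE.out 0 1).1 hnoe
  have hq0 : ((q : ℕ) : A1 A K₁) ≠ 0 := by exact_mod_cast hq.ne_zero
  have hqnu : ¬ IsUnit ((q : ℕ) : A1 A K₁) := by
    intro h
    let f : A1 A K₁ →+* A :=
      { toFun := fun x => ⟨((x : K₁) : Qb), x.2⟩
        map_one' := rfl
        map_mul' := fun _ _ => rfl
        map_zero' := rfl
        map_add' := fun _ _ => rfl }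
    have h1 := (A.valuation_eq_one_iff _).1 (h.map f)
    have h2 := val_q_lt hA
    rw [map_natCast] at h1
    have h3 : (((q : ℕ) : A) : Qb) = (q : Qb) := by push_cast; rfl
    rw [h3] at h1
    exact h2.ne h1
  exact
    { not_a_field' := by
        intro h
        apply hqnu
        by_contra hnu
        have : ((q : ℕ) : A1 A K₁) ∈ maximalIdeal (A1 A K₁) := (mem_maximalIdeal _).2 hnu
        rw [h, Ideal.mem_bot] at this
        exact hq0 this }

theorem unit_iff (K₁ : IntermediateField (K0 A) Qb) (x : A1 A K₁) :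
    IsUnit x ↔ A.valuation (((x : K₁) : Qb)) = 1 := by
  constructor
  · intro h
    let f : A1 A K₁ →+* A :=
      { toFun := fun x => ⟨((x : K₁) : Qb), x.2⟩
        map_one' := rfl
        map_mul' := fun _ _ => rfl
        map_zero' := rfl
        map_add' := fun _ _ => rfl }
    exact (A.valuation_eq_one_iff _).1 (h.map f)
  · intro h
    have hx0 : (x : K₁) ≠ 0 := by
      intro h0
      rw [h0] at h
      simp at h
    have hinv : ((x : K₁))⁻¹ ∈ A1 A K₁ := by
      change (((x : K₁)⁻¹ : K₁) : Qb) ∈ A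
      rw [← A.valuation_le_one_iff, IntermediateField.coe_inv, map_inv₀, h, inv_one]
    exact IsUnit.of_mul_eq_one ⟨_, hinv⟩ (Subtype.ext (mul_inv_cancel₀ hx0))

/-- existence of a uniformizer -/
theorem exists_unif (hq : q.Prime) (hA : A.LiesOverPrime q) (K₁ : IntermediateField (K0 A) Qb)
    [FiniteDimensional (K0 A) K₁] : ∃ ϖ : Qb, Unif A K₁.toSubfield ϖ := by
  haveI := dvr_A1 hq hA K₁
  obtain ⟨ϖ, hϖ⟩ := IsDiscreteValuationRing.exists_irreducible (A1 A K₁)
  have hϖ0 : (((ϖ : K₁) : Qb)) ≠ 0 := fun h => hϖ.ne_zero (Subtype.ext (Subtype.ext h))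
  have hv0 : A.valuation (((ϖ : K₁) : Qb)) ≠ 0 := (Valuation.ne_zero_iff _).mpr hϖ0
  have key : ∀ x : A1 A K₁, x ≠ 0 → ∃ m : ℤ, A.valuation ((((ϖ : K₁) : Qb)) ^ m *
      ((x : K₁) : Qb)) = 1 := by
    intro x hx
    obtain ⟨n, u, hu⟩ := IsDiscreteValuationRing.associated_pow_irreducible hx hϖ
    have h1 := (unit_iff K₁ _).1 u.isUnit
    have h2 := congrArg (fun z : A1 A K₁ => A.valuation ((z : K₁) : Qb)) hu
    simp only [MulMemClass.coe_mul, SubmonoidClass.coe_pow, map_mul, map_pow] at h2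
    rw [h1, mul_one] at h2
    refine ⟨-(n : ℤ), ?_⟩
    rw [map_mul, map_zpow₀, zpow_neg, zpow_natCast, h2, inv_mul_cancel₀ (pow_ne_zero _ hv0)]
  refine ⟨((ϖ : K₁) : Qb), (ϖ : K₁).2, hϖ0, ?_, ?_⟩
  · refine lt_of_le_of_ne ((A.valuation_le_one_iff _).2 ϖ.2) ?_
    intro h
    exact hϖ.not_isUnit ((unit_iff K₁ ϖ).2 h)
  · intro x hx hx0
    rcases (A1 A K₁).mem_or_inv_mem ⟨x, hx⟩ with h | h
    · exact key ⟨_, h⟩ (fun h0 => hx0 (congrArg (fun z : A1 A K₁ => ((z : K₁) : Qb)) h0))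
    · obtain ⟨m, hm⟩ := key ⟨_, h⟩ (fun h0 => by
        have h1 : ((⟨x, hx⟩ : K₁)⁻¹) = 0 := congrArg Subtype.val h0
        rw [inv_eq_zero] at h1
        exact hx0 (congrArg Subtype.val h1))
      refine ⟨-m, ?_⟩
      have e : ((((⟨x, hx⟩ : K₁)⁻¹ : K₁)) : Qb) = x⁻¹ := rfl
      change A.valuation (((ϖ : K₁) : Qb) ^ m * ((((⟨x, hx⟩ : K₁)⁻¹ : K₁)) : Qb)) = 1 at hm
      rw [e] at hm
      have h2 : ((ϖ : K₁) : Qb) ^ (-m) * x = (((ϖ : K₁) : Qb) ^ m * x⁻¹)⁻¹ := by
        rw [mul_inv, inv_inv, zpow_neg]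
      rw [h2, map_inv₀, hm, inv_one]

variable {M : ℕ}

/-- modular functions are defined over finite extensions -/
theorem exists_fin_ext (A : ValuationSubring Qb) (hM : M ≠ 0) {x : ℒ Qb}
    (hx : x ∈ modularFunctionFieldFullC Qb M) :
    ∃ K₁ : IntermediateField (K0 A) Qb, FiniteDimensional (K0 A) K₁ ∧
      x ∈ FL K₁.toSubfield M := by
  rw [modularFunctionFieldFullC] at hx
  induction hx using IntermediateField.adjoin_induction with
  | mem x hx =>
    obtain ⟨d, hd, hdM, rfl⟩ := hx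
    refine ⟨⊥, inferInstance, ?_⟩
    rw [← Jd_eq]
    exact Jd_mem_FL hdM
  | algebraMap c =>
    refine ⟨IntermediateField.adjoin (K0 A) {c}, IntermediateField.adjoin.finiteDimensional
      (Algebra.IsIntegral.isIntegral c), ?_⟩
    rw [← ModFun.C_eq_algebraMap]
    exact C_mem_FL (IntermediateField.mem_adjoin_simple_self _ c)
  | add x y _ _ hx hy =>
    obtain ⟨E, hE, h1⟩ := hx
    obtain ⟨E', hE', h2⟩ := hy
    refine ⟨E ⊔ E', inferInstance, add_mem (FL_mono ?_ h1) (FL_mono ?_ h2)⟩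
    · exact fun z hz => (le_sup_left : E ≤ E ⊔ E') hz
    · exact fun z hz => (le_sup_right : E' ≤ E ⊔ E') hz
  | inv x _ hx =>
    obtain ⟨E, hE, h1⟩ := hx
    exact ⟨E, hE, inv_mem h1⟩
  | mul x y _ _ hx hy =>
    obtain ⟨E, hE, h1⟩ := hx
    obtain ⟨E', hE', h2⟩ := hy
    refine ⟨E ⊔ E', inferInstance, mul_mem (FL_mono ?_ h1) (FL_mono ?_ h2)⟩
    · exact fun z hz => (le_sup_left : E ≤ E ⊔ E') hz
    · exact fun z hz => (le_sup_right : E' ≤ E ⊔ E') hz

/-- the field of constants -/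
theorem exists_const (A : ValuationSubring Qb) (hM : M ≠ 0) {x : ℒ Qb}
    (hx : x ∈ modularFunctionFieldFullC Qb M) (z : Qb) :
    ∃ K₁ : IntermediateField (K0 A) Qb, FiniteDimensional (K0 A) K₁ ∧ Normal (K0 A) K₁ ∧
      z ∈ K₁ ∧ x ∈ FL K₁.toSubfield M := by
  obtain ⟨E, hE, h1⟩ := exists_fin_ext A hM hx
  haveI : FiniteDimensional (K0 A) (IntermediateField.adjoin (K0 A) {z}) :=
    IntermediateField.adjoin.finiteDimensional (Algebra.IsIntegral.isIntegral z)
  let E' : IntermediateField (K0 A) Qb := E ⊔ IntermediateField.adjoin (K0 A) {z}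
  haveI : Normal (K0 A) Qb := inferInstance
  have h2 : Normal (K0 A) (IntermediateField.normalClosure (K0 A) E' Qb) :=
    normalClosure.normal (K0 A) E' Qb
  have h3 : E' ≤ IntermediateField.normalClosure (K0 A) E' Qb :=
    IntermediateField.le_normalClosure E'
  refine ⟨IntermediateField.normalClosure (K0 A) E' Qb, inferInstance, h2, ?_, ?_⟩
  · apply h3
    exact (le_sup_right : IntermediateField.adjoin (K0 A) {z} ≤ E')
      (IntermediateField.mem_adjoin_simple_self _ z)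
  · exact FL_mono (fun y hy => h3 ((le_sup_left : E ≤ E') hy)) h1

/-- an element of the inertia group as an automorphism over the inertia field -/
theorem exists_K0_aut {τ : Qb ≃ₐ[ℚ] Qb} (hτ : τ ∈ A.inertiaSubgroupIn ℚ) :
    ∃ τ' : Qb ≃ₐ[K0 A] Qb, ∀ x, τ' x = τ x := by
  rw [← fixingSubgroup_K0, IntermediateField.mem_fixingSubgroup_iff] at hτ
  exact ⟨AlgEquiv.ofRingEquiv (f := τ.toRingEquiv) (fun x => hτ x x.2), fun x => rfl⟩

theorem inertia_mem (K₁ : IntermediateField (K0 A) Qb) [Normal (K0 A) K₁]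
    {τ : Qb ≃ₐ[ℚ] Qb} (hτ : τ ∈ A.inertiaSubgroupIn ℚ) {c : Qb} (hc : c ∈ K₁) : τ c ∈ K₁ := by
  obtain ⟨τ', hτ'⟩ := exists_K0_aut hτ
  have h := IntermediateField.normal_iff_forall_map_le'.mp (inferInstance : Normal (K0 A) K₁) τ'
  rw [← hτ']
  exact h ⟨c, hc, rfl⟩

end Fermat.Agent.MazHD
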