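import Fermat.Agent.MazHD.DL3

/-!
# [DECL]
-/

set_option autoImplicit false
set_option linter.unusedSectionVars false
set_option linter.style.haveILetI false

noncomputable section

namespace Fermat.Agent.MazHD

open ModularCurve Fermat.Agent.ModFun Fermat.Agent.GoodRed Fermat.Agent.MazR IsLocalRing
open Fermat.Agent.Carayol Polynomial
open Fermat.Agent.SSMod (LR.C LR.div LR.pow LR.sub coeffMap_C')
open scoped Pointwise

local notation "ℒ" => LaurentSeries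

/-- elements of the residue field lie in finite fields -/
theorem frob_fin {A : ValuationSubring Qb} {r : ℕ} [hr : Fact r.Prime] (hA : A.LiesOverPrime r)
    (c : ResidueField A) : ∃ m : ℕ, 0 < m ∧ c ^ r ^ m = c := by
  haveI : CharP (ResidueField A) r := FrobDens.charP_residueField A hr.out hA
  letI : Algebra (ZMod r) (ResidueField A) := ZMod.algebra _ r
  have halg := TWGal.isAlgebraic_residueField (A := A) hr.out hA
  have hint : IsIntegral (ZMod r) c := (halg.isAlgebraic c).isIntegral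
  let E := IntermediateField.adjoin (ZMod r) ({c} : Set (ResidueField A))
  haveI : FiniteDimensional (ZMod r) E := IntermediateField.adjoin.finiteDimensional hint
  haveI : Finite E := Module.finite_of_finite (ZMod r)
  haveI : Fintype E := Fintype.ofFinite E
  haveI : CharP E r := charP_of_injective_algebraMap (algebraMap (ZMod r) E).injective r
  obtain ⟨n, -, hn⟩ := FiniteField.card E r
  refine ⟨n, n.pos, ?_⟩
  have h1 := FiniteField.pow_card (⟨c, IntermediateField.mem_adjoin_simple_self _ c⟩ : E)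
  rw [hn] at h1
  exact congrArg Subtype.val h1

theorem LR_unit {A : ValuationSubring Qb} {x : ℒ Qb} (hx : ∀ n, x.coeff n ∈ A)
    (h0 : x.coeff 0 = 1) : ∃ y : ℒ (ResidueField A), y ≠ 0 ∧ LR (residue A) x y := by
  obtain ⟨f, rfl⟩ := exists_coeffMap hx
  refine ⟨_, ?_, LR.of f⟩
  intro h
  have h1 := congrArg (fun z : ℒ (ResidueField A) => z.coeff 0) h
  rw [coeffMap_coeff] at h0 h1
  have h2 : f.coeff 0 = 1 := Subtype.ext h0
  rw [h2, map_one, HahnSeries.coeff_zero] at h1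
  exact one_ne_zero h1

/-- the constant coefficient of a product of power series -/
theorem root_const {n : ℕ} {ζ0 : Qb} (hζ0 : IsPrimitiveRoot ζ0 n) {x y : ℒ Qb} (hx : x.coeff 0 = 1)
    (hy : y.coeff 0 = 1) (hn : n ≠ 0) (hxy : x ^ n = y ^ n) : x = y := by
  have hy0 : y ≠ 0 := by
    rintro rfl
    rw [HahnSeries.coeff_zero] at hy
    exact zero_ne_one hy
  have h1 : (x / y) ^ n = 1 := by rw [div_pow, hxy, div_self (pow_ne_zero n hy0)]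
  haveI : NeZero n := ⟨hn⟩
  have h2 : IsPrimitiveRoot (HahnSeries.C ζ0 : ℒ Qb) n :=
    hζ0.map_of_injective (f := (HahnSeries.C : Qb →+* ℒ Qb)) HahnSeries.C_injective
  obtain ⟨i, -, hi⟩ := h2.eq_pow_of_pow_eq_one h1
  rw [← map_pow, eq_div_iff hy0] at hi
  have h3 := congrArg (fun z : ℒ Qb => z.coeff 0) hi
  rw [HahnSeries.C_mul_eq_smul, HahnSeries.coeff_smul, hy, hx, smul_eq_mul, mul_one] at h3
  rw [h3, map_one, one_mul] at hi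
  exact hi.symm

/-- the coefficients of an `n`-th root -/
theorem coeff_mem_K {A : ValuationSubring Qb} (K₁ : IntermediateField (K0 A) Qb) {M : ℕ}
    (hM : M ≠ 0) {n : ℕ} (hn : n ≠ 0) {ζ0 : Qb} (hζ0 : IsPrimitiveRoot ζ0 n) {w : ℒ Qb}
    (hw0 : w.coeff 0 = 1) (hw : w ^ n ∈ FL K₁.toSubfield M) (i : ℤ) : w.coeff i ∈ K₁ := by
  have key : ∀ τ : Qb ≃ₐ[K₁] Qb, τ (w.coeff i) = w.coeff i := by
    intro τ
    have h1 : coeffMap (τ : Qb →+* Qb) (w ^ n) = w ^ n :=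
      fix_FL hM _ (fun c hc => τ.commutes ⟨c, hc⟩) hw
    rw [map_pow] at h1
    have h2 : (coeffMap (τ : Qb →+* Qb) w).coeff 0 = 1 := by
      rw [coeffMap_coeff, hw0, map_one]
    have h3 := root_const hζ0 h2 hw0 hn h1
    have h4 := congrArg (fun z : ℒ Qb => z.coeff i) h3
    rw [coeffMap_coeff] at h4
    exact h4
  haveI : IsGalois K₁ Qb := inferInstance
  have h := (InfiniteGalois.mem_bot_iff_fixed (k := K₁) (K := Qb) (w.coeff i)).mpr key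
  rw [IntermediateField.mem_bot] at h
  obtain ⟨y, hy⟩ := h
  rw [← hy]
  exact y.2

theorem gal_LR {A : ValuationSubring Qb} {τ : Qb ≃ₐ[ℚ] Qb} (hτ : τ ∈ A.inertiaSubgroupIn ℚ)
    {x : ℒ Qb} {y : ℒ (ResidueField A)} (hxy : LR (residue A) x y) :
    LR (residue A) (coeffMap (τ : Qb →+* Qb) x) y := by
  obtain ⟨hdec, hact⟩ := HeckeQ.actK_inertia hτ
  have h2 : HeckeQ.Rd A (coeffMap (τ : Qb →+* Qb) x)
      (coeffMap (HeckeQ.actK τ hdec : _ →+* ResidueField A) y) := HeckeQ.Rd.gal hxy τ hdec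
  have e1 : coeffMap (HeckeQ.actK τ hdec : _ →+* ResidueField A) y = y := by
    ext n
    simp only [coeffMap_coeff]
    exact hact _
  rw [e1] at h2
  exact h2

/-- the orbit of a series under inertia -/
def orb (A : ValuationSubring Qb) (w : ℒ Qb) : Set (ℒ Qb) :=
  {y | ∃ τ ∈ A.inertiaSubgroupIn ℚ, y = coeffMap ((τ : Qb ≃ₐ[ℚ] Qb) : Qb →+* Qb) w}

theorem orb_mul {A : ValuationSubring Qb} {w : ℒ Qb} {τ : Qb ≃ₐ[ℚ] Qb}
    (hτ : τ ∈ A.inertiaSubgroupIn ℚ) {y : ℒ Qb} (hy : y ∈ orb A w) :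
    coeffMap (τ : Qb →+* Qb) y ∈ orb A w := by
  obtain ⟨ρ, hρ, rfl⟩ := hy
  refine ⟨τ * ρ, mul_mem hτ hρ, ?_⟩
  rw [coeffMap_coeffMap]
  rfl

theorem orb_finite {A : ValuationSubring Qb} {K₁ : IntermediateField (K0 A) Qb}
    [FiniteDimensional (K0 A) K₁] {w : ℒ Qb} (hwK : ∀ n, w.coeff n ∈ K₁) :
    (orb A w).Finite := by
  have hw1 : ∃ w₁ : ℒ K₁, coeffMap (algebraMap K₁ Qb) w₁ = w := by
    refine ⟨⟨fun n => ⟨w.coeff n, hwK n⟩, ?_⟩, ?_⟩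
    · refine w.isPWO_support.mono fun n hn => ?_
      rw [Function.mem_support] at hn
      rw [HahnSeries.mem_support]
      intro h0
      exact hn (Subtype.ext h0)
    · ext n
      rw [coeffMap_coeff]
      rfl
  obtain ⟨w₁, hw₁⟩ := hw1
  have h1 : (Set.range (fun φ : K₁ →ₐ[K0 A] Qb => coeffMap (φ : K₁ →+* Qb) w₁)).Finite :=
    Set.finite_range _
  refine h1.subset ?_
  rintro y ⟨τ, hτ, rfl⟩
  obtain ⟨τ', hτ'⟩ := exists_K0_aut hτ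
  refine ⟨(τ' : Qb →ₐ[K0 A] Qb).comp K₁.val, ?_⟩
  rw [← hw₁, coeffMap_coeffMap]
  congr 2
  ext x
  exact hτ' _

section Main

variable {A : ValuationSubring Qb} {L : Subfield Qb} {ϖ : Qb} (hU : Unif A L ϖ) {M : ℕ}
  (hM : M ≠ 0) {F Ω : Type} [Field F] [Field Ω] (φ : F →+* ℒ Qb) (j : Ω →+* ℒ Qb)
  (hφ : ∀ x, x ∈ FL L M ↔ ∃ a, φ a = x) (hj : ∀ x, x ∈ Om A L ↔ ∃ a, j a = x)
  (hj' : ∀ x, j x ∈ Om A L)
  [Algebra F Ω] (hi : ∀ a, j (algebraMap F Ω a) = φ a) {ϖ' : Ω} (hϖ' : j ϖ' = HahnSeries.C ϖ)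

include hφ hi in
theorem j_mem_res : jqModC (ResidueField A) ∈ resF (dr hU j hj' hϖ') (base F Ω) := by
  obtain ⟨a, ha⟩ := (hφ _).mp (Jd_mem_FL (K := Qb) (L := L) (one_dvd M))
  have h1 : LR (residue A) (j (algebraMap F Ω a)) (jqModC (ResidueField A)) := by
    rw [hi, ha, Jd_one]
    exact LR_jq (residue A)
  exact mem_resF.mpr ⟨algebraMap F Ω a, ⟨_, rfl⟩, ⟨_, h1⟩, dr_r hU j hj' hϖ' h1⟩

include hM hφ hi in
theorem res_le (hMκ : ((M : ℕ) : ResidueField A) ≠ 0) :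
    ∀ x ∈ resF (dr hU j hj' hϖ') (base F Ω),
      x ∈ modularFunctionFieldFullC (ResidueField A) M := by
  intro x hx
  obtain ⟨z, hz, hO, hr⟩ := mem_resF.mp hx
  obtain ⟨a, ha⟩ := mem_base.mp hz
  obtain ⟨y, hy⟩ := hO
  rw [dr_r hU j hj' hϖ' hy] at hr
  rw [← hr]
  have h2 : j z = φ a := by rw [← ha, hi]
  rw [h2] at hy
  have hMQ : (M : Qb) ≠ 0 := Nat.cast_ne_zero.mpr hM
  exact TorLift.red_mem_N (residue A) M residue_surjective hMQ hMκ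
    (FL_le_full hM ((hφ _).mpr ⟨a, rfl⟩)) hy

include hM hφ hi in
theorem sep_FL {r : ℕ} [hr : Fact r.Prime] (hA : A.LiesOverPrime r)
    (hMκ : ((M : ℕ) : ResidueField A) ≠ 0) :
    ∀ y : ℒ (ResidueField A), IsIntegral (resF (dr hU j hj' hϖ') (base F Ω)) y →
      (minpoly (resF (dr hU j hj' hϖ') (base F Ω)) y).Separable := by
  haveI : CharP (ResidueField A) r := FrobDens.charP_residueField A hr.out hA
  haveI : IsAlgClosed (ResidueField A) := GoodRed.isAlgClosed_residueField A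
  intro y hy
  exact MazR.sep_main M hMκ (frob_fin hA) (j_mem_res hU φ j hφ hj' hi hϖ')
    (res_le hU hM φ j hφ hj' hi hϖ' hMκ) hy

include hU hM hφ hj hj' hi hϖ' in
theorem dec_FL {r : ℕ} [hr : Fact r.Prime] (hA : A.LiesOverPrime r)
    (hMκ : ((M : ℕ) : ResidueField A) ≠ 0) {k : ℕ} {ζ0 : Qb} (hζ0 : IsPrimitiveRoot ζ0 (r ^ k))
    (hζL : ζ0 ∈ L) {w : ℒ Qb} (hwA : ∀ n, w.coeff n ∈ A) (hwL : ∀ n, w.coeff n ∈ L)
    (hw0 : w.coeff 0 = 1) (hwF : w ^ r ^ k ∈ FL L M)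
    (hLst : ∀ τ : Qb ≃ₐ[ℚ] Qb, τ ∈ A.inertiaSubgroupIn ℚ → ∀ c ∈ L, τ c ∈ L)
    (hfin : (orb A w).Finite) {σ : Qb ≃ₐ[ℚ] Qb} (hσ : σ ∈ A.inertiaSubgroupIn ℚ) {c : ℕ}
    (hc : σ ζ0 = ζ0 ^ c) (m : ℕ) :
    ∃ g ∈ FL L M, ∃ z, LR (residue A)
      ((coeffMap (σ : Qb →+* Qb) w / w ^ c - g) / (HahnSeries.C ϖ) ^ m) z := by
  haveI : CharP (ResidueField A) r := FrobDens.charP_residueField A hr.out hA
  haveI : CharP (ℒ (ResidueField A)) r := charP_of_injective_ringHom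
    (f := (HahnSeries.C : ResidueField A →+* ℒ (ResidueField A))) HahnSeries.C_injective r
  haveI : CharZero (ℒ Qb) := charZero_of_injective_ringHom
    (f := (HahnSeries.C : Qb →+* ℒ Qb)) HahnSeries.C_injective
  haveI : CharZero F := ⟨fun a b h => Nat.cast_injective (R := ℒ Qb) (by
    have := congrArg φ h
    rwa [map_natCast, map_natCast] at this)⟩
  have hAst : ∀ τ : Qb ≃ₐ[ℚ] Qb, τ ∈ A.inertiaSubgroupIn ℚ → ∀ c ∈ A, τ c ∈ A :=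
    fun τ hτ c hc => (((mem_inertia_iff A τ).1 hτ).1 c).mpr hc
  have hσ' : σ⁻¹ ∈ A.inertiaSubgroupIn ℚ := inv_mem hσ
  have hcomp : ∀ (τ ρ : Qb ≃ₐ[ℚ] Qb), τ * ρ = 1 → ∀ x : ℒ Qb,
      coeffMap (τ : Qb →+* Qb) (coeffMap (ρ : Qb →+* Qb) x) = x := by
    intro τ ρ h x
    ext n
    rw [coeffMap_coeff, coeffMap_coeff]
    exact DFunLike.congr_fun h (x.coeff n)
  obtain ⟨s, hs, hs'⟩ := exists_lift_equiv j (coeffMap (σ : Qb →+* Qb))
    (coeffMap ((σ⁻¹ : Qb ≃ₐ[ℚ] Qb) : Qb →+* Qb))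
    (fun x => (hj _).mp (map_Om _ (hLst σ hσ) (hAst σ hσ) (hj' x)))
    (fun x => (hj _).mp (map_Om _ (hLst σ⁻¹ hσ') (hAst σ⁻¹ hσ') (hj' x)))
    (hcomp _ _ (inv_mul_cancel σ)) (hcomp _ _ (mul_inv_cancel σ))
  obtain ⟨ϖF, hϖF⟩ := (hφ _).mp (C_mem_FL (M := M) hU.mem)
  obtain ⟨ζ, hζ⟩ := (hφ _).mp (C_mem_FL (M := M) hζL)
  obtain ⟨w', hw'⟩ := (hj w).mp (PL_le_Om (mem_PL.mpr fun n => ⟨hwL n, hwA n⟩))
  have hζprim : IsPrimitiveRoot ζ (r ^ k) := by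
    have h2 : IsPrimitiveRoot (HahnSeries.C ζ0 : ℒ Qb) (r ^ k) :=
      hζ0.map_of_injective (f := (HahnSeries.C : Qb →+* ℒ Qb)) HahnSeries.C_injective
    rw [← hζ] at h2
    exact IsPrimitiveRoot.of_map_of_injective h2 φ.injective
  have a1 : algebraMap F Ω ϖF = (dr hU j hj' hϖ').ϖ := by
    apply j.injective
    rw [hi, hϖF]
    exact hϖ'.symm
  have a2 : ∀ a : F, ∃ b : F, s (algebraMap F Ω a) = algebraMap F Ω b := by
    intro a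
    obtain ⟨b, hb⟩ := (hφ _).mp (map_FL hM (σ : Qb →+* Qb) (hLst σ hσ)
      ((hφ _).mpr ⟨a, rfl⟩))
    exact ⟨b, j.injective (by rw [hs, hi, hi, hb])⟩
  have a3 : ∀ a : F, ∃ b : F, s.symm (algebraMap F Ω a) = algebraMap F Ω b := by
    intro a
    obtain ⟨b, hb⟩ := (hφ _).mp (map_FL hM ((σ⁻¹ : Qb ≃ₐ[ℚ] Qb) : Qb →+* Qb) (hLst σ⁻¹ hσ')
      ((hφ _).mpr ⟨a, rfl⟩))
    exact ⟨b, j.injective (by rw [hs', hi, hi, hb])⟩
  have a4 : s (algebraMap F Ω ζ) = algebraMap F Ω ζ ^ c := by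
    apply j.injective
    rw [hs, hi, hζ, coeffMap_C', map_pow, hi, hζ, ← map_pow]
    congr 1
  have a5 : ∀ x : Ω, x ∈ (dr hU j hj' hϖ').O → s x ∈ (dr hU j hj' hϖ').O ∧
      (dr hU j hj' hϖ').r (s x) = (dr hU j hj' hϖ').r x := by
    intro x hx
    obtain ⟨y, hy⟩ := hx
    have h1 := gal_LR hσ hy
    rw [← hs] at h1
    exact ⟨⟨y, h1⟩, (dr_r hU j hj' hϖ' h1).trans (dr_r hU j hj' hϖ' hy).symm⟩
  have a6 : ∀ x : Ω, x ∈ (dr hU j hj' hϖ').O → s.symm x ∈ (dr hU j hj' hϖ').O := by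
    intro x hx
    obtain ⟨y, hy⟩ := hx
    have h1 := gal_LR hσ' hy
    rw [← hs'] at h1
    exact ⟨y, h1⟩
  have a7 : ∀ y ∈ j ⁻¹' (orb A w), (dr hU j hj' hϖ').r y ≠ 0 := by
    rintro y ⟨τ, hτ, hy⟩
    obtain ⟨z, hz0, hz⟩ := LR_unit (x := coeffMap (τ : Qb →+* Qb) w) (A := A)
      (fun n => by rw [coeffMap_coeff]; exact hAst τ hτ _ (hwA n))
      (by rw [coeffMap_coeff, hw0, map_one])
    rw [← hy] at hz
    rw [dr_r hU j hj' hϖ' hz]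
    exact hz0
  have a8 : ∀ y ∈ j ⁻¹' (orb A w), y ^ (r ^ k) ∈ base F Ω := by
    rintro y ⟨τ, hτ, hy⟩
    obtain ⟨b, hb⟩ := (hφ _).mp (map_FL hM (τ : Qb →+* Qb) (hLst τ hτ) hwF)
    refine mem_base.mpr ⟨b, j.injective ?_⟩
    rw [hi, hb, map_pow, map_pow, hy]
  have a9 : w' ∈ j ⁻¹' (orb A w) := by
    change j w' ∈ orb A w
    rw [hw']
    refine ⟨1, one_mem _, ?_⟩
    ext n
    rw [coeffMap_coeff]
    rfl
  obtain ⟨g, z, hz⟩ := MazR.dec (dr hU j hj' hϖ') a1 (sep_FL hU hM φ j hφ hj' hi hϖ' hA hMκ)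
    hζprim a2 a3 a4 a5 a6 (W := j ⁻¹' (orb A w)) (hfin.preimage j.injective.injOn)
    (fun y hy => by
      change j (s y) ∈ orb A w
      rw [hs]
      exact orb_mul hσ hy)
    (fun y hy => by
      change j (s.symm y) ∈ orb A w
      rw [hs']
      exact orb_mul hσ' hy) a7 a8 a9 m
  refine ⟨φ g, (hφ _).mpr ⟨g, rfl⟩, z, ?_⟩
  have e : j ((s w' / w' ^ c - algebraMap F Ω g) / ϖ' ^ m) =
      (coeffMap (σ : Qb →+* Qb) w / w ^ c - φ g) / (HahnSeries.C ϖ) ^ m := by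
    rw [map_div₀, map_sub, map_div₀, map_pow, map_pow, hs, hi, hw', hϖ']
  rw [← e]
  exact hz

end Main

theorem decStatement : MazR.DecStatement := by
  intro r hr A hA M hMκ k w hw hw0 hwn σ hσ c hc α hα
  have hM : M ≠ 0 := by
    rintro rfl
    exact hMκ (by simp)
  have hrk : r ^ k ≠ 0 := pow_ne_zero k hr.out.ne_zero
  haveI : NeZero ((r ^ k : ℕ) : Qb) := ⟨by exact_mod_cast hrk⟩
  obtain ⟨ζ0, hζ0⟩ := HasEnoughRootsOfUnity.exists_primitiveRoot Qb (r ^ k)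
  obtain ⟨K₁, hfin, hnor, hζK, hwF⟩ := exists_const A hM hwn ζ0
  obtain ⟨ϖ, hU⟩ := exists_unif hr.out hA K₁
  obtain ⟨hwnn, hwA⟩ := mem_PA.mp hw
  have hwK := coeff_mem_K K₁ hM hrk hζ0 hw0 hwF
  have hrank := GoodRed.rankOne_Qbar hr.out hA
  have hϖA : (⟨ϖ, hU.memA⟩ : A) ≠ 0 := fun h0 => hU.ne (congrArg Subtype.val h0)
  have hϖres : residue A ⟨ϖ, hU.memA⟩ = 0 := by
    rw [residue_eq_zero_iff]
    exact (A.valuation_lt_one_iff _).mpr hU.lt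
  obtain ⟨m, hm⟩ := hrank ⟨ϖ, hU.memA⟩ hϖA hϖres (α : Qb)⁻¹
  obtain ⟨F, fF, φ, hφ⟩ : ∃ (F : Type) (_ : Field F) (φ : F →+* ℒ Qb),
      ∀ x, x ∈ FL K₁.toSubfield M ↔ ∃ a, φ a = x :=
    ⟨FL K₁.toSubfield M, inferInstance, (FL K₁.toSubfield M).subtype, fun x =>
      ⟨fun h => ⟨⟨x, h⟩, rfl⟩, by rintro ⟨a, rfl⟩; exact a.2⟩⟩
  obtain ⟨Ω, fΩ, j, hj⟩ : ∃ (Ω : Type) (_ : Field Ω) (j : Ω →+* ℒ Qb),
      ∀ x, x ∈ Om A K₁.toSubfield ↔ ∃ a, j a = x :=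
    ⟨Om A K₁.toSubfield, inferInstance, (Om A K₁.toSubfield).subtype, fun x =>
      ⟨fun h => ⟨⟨x, h⟩, rfl⟩, by rintro ⟨a, rfl⟩; exact a.2⟩⟩
  obtain ⟨i, hi⟩ := exists_lift_hom φ j
    (fun x => (hj _).mp (FL_le_Om A hM ((hφ _).mpr ⟨x, rfl⟩)))
  letI : Algebra F Ω := i.toAlgebra
  obtain ⟨ϖ', hϖ'⟩ := (hj _).mp (C_mem_Om (A := A) hU.mem)
  obtain ⟨g, hg, z, hz⟩ := dec_FL hU hM φ j hφ hj (fun x => (hj _).mpr ⟨x, rfl⟩) hi hϖ'
    hA hMκ hζ0 hζK hwA hwK hw0 hwF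
    (fun τ hτ c hc => inertia_mem K₁ hτ hc) (orb_finite hwK) hσ (hc ζ0 hζ0.pow_eq_one) m
  have h1 := (LR.C (π := residue A) ⟨ϖ ^ m * (α : Qb)⁻¹, hm⟩).mul hz
  refine ⟨g, FL_le_full hM hg,
    HahnSeries.C (residue A ⟨ϖ ^ m * (α : Qb)⁻¹, hm⟩) * z, ?_⟩
  have hCϖ : (HahnSeries.C ϖ : ℒ Qb) ≠ 0 := by
    rw [Ne, map_eq_zero]
    exact hU.ne
  have e1 : (HahnSeries.C (ϖ ^ m * (α : Qb)⁻¹) : ℒ Qb) *
      ((coeffMap (σ : Qb →+* Qb) w / w ^ c - g) / (HahnSeries.C ϖ) ^ m) =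
      HahnSeries.C (α : Qb)⁻¹ * (coeffMap (σ : Qb →+* Qb) w / w ^ c - g) := by
    rw [map_mul, map_pow]
    field_simp
  rw [← e1]
  exact h1

end Fermat.Agent.MazHD
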